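import Mathlib

/-!
# S56 / E / key `S56/E-EXACT9` : cardinalities in an exact sequence with nine terms      (MATHLIB ONLY, ~100 lines)

`0 → X₁ → X₂ → … → X₉ → 0` exact, all finite ⇒ `#X₁ #X₃ #X₅ #X₇ #X₉ = #X₂ #X₄ #X₆ #X₈`.
PROOF: `#X_k = #ker f_k * #range f_k` (`AddSubgroup.card_eq_card_quotient_mul_card_addSubgroup` + `QuotientAddGroup.quotientKerEquivRange`, or `AddMonoidHom.card_..`), `#ker f_{k+1} = #range f_k`.
-/

set_option autoImplicit false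

namespace Fermat.Agent.S56.E

theorem card_ker_range_aux {X Y : Type*} [AddCommGroup X] [AddCommGroup Y] (f : X →+ Y) :
    Nat.card X = Nat.card f.range * Nat.card f.ker := by
  rw [AddSubgroup.card_eq_card_quotient_mul_card_addSubgroup f.ker,
    Nat.card_congr (QuotientAddGroup.quotientKerEquivRange f).toEquiv]

theorem card_ker_eq_aux {X Y Z : Type*} [AddCommGroup X] [AddCommGroup Y] [AddCommGroup Z]
    (f : X →+ Y) (g : Y →+ Z) (h : ∀ x, g x = 0 ↔ ∃ y, f y = x) :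
    Nat.card g.ker = Nat.card f.range := by
  have : g.ker = f.range := by
    ext x
    rw [AddMonoidHom.mem_ker, h, AddMonoidHom.mem_range]
  rw [this]

theorem card_exact9 {X₁ X₂ X₃ X₄ X₅ X₆ X₇ X₈ X₉ : Type*} [AddCommGroup X₁] [AddCommGroup X₂]
    [AddCommGroup X₃] [AddCommGroup X₄] [AddCommGroup X₅] [AddCommGroup X₆] [AddCommGroup X₇]
    [AddCommGroup X₈] [AddCommGroup X₉] [Finite X₁] [Finite X₂] [Finite X₃] [Finite X₄] [Finite X₅]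
    [Finite X₆] [Finite X₇] [Finite X₈] [Finite X₉]
    (f₁ : X₁ →+ X₂) (f₂ : X₂ →+ X₃) (f₃ : X₃ →+ X₄) (f₄ : X₄ →+ X₅) (f₅ : X₅ →+ X₆) (f₆ : X₆ →+ X₇)
    (f₇ : X₇ →+ X₈) (f₈ : X₈ →+ X₉) (h₁ : Function.Injective f₁)
    (h₂ : ∀ x, f₂ x = 0 ↔ ∃ y, f₁ y = x) (h₃ : ∀ x, f₃ x = 0 ↔ ∃ y, f₂ y = x)
    (h₄ : ∀ x, f₄ x = 0 ↔ ∃ y, f₃ y = x) (h₅ : ∀ x, f₅ x = 0 ↔ ∃ y, f₄ y = x)
    (h₆ : ∀ x, f₆ x = 0 ↔ ∃ y, f₅ y = x) (h₇ : ∀ x, f₇ x = 0 ↔ ∃ y, f₆ y = x)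
    (h₈ : ∀ x, f₈ x = 0 ↔ ∃ y, f₇ y = x) (h₉ : Function.Surjective f₈) :
    Nat.card X₁ * Nat.card X₃ * Nat.card X₅ * Nat.card X₇ * Nat.card X₉ =
      Nat.card X₂ * Nat.card X₄ * Nat.card X₆ * Nat.card X₈ := by
  have e₁ := card_ker_range_aux f₁
  have e₂ := card_ker_range_aux f₂
  have e₃ := card_ker_range_aux f₃
  have e₄ := card_ker_range_aux f₄
  have e₅ := card_ker_range_aux f₅
  have e₆ := card_ker_range_aux f₆
  have e₇ := card_ker_range_aux f₇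
  have e₈ := card_ker_range_aux f₈
  rw [card_ker_eq_aux f₁ f₂ h₂] at e₂
  rw [card_ker_eq_aux f₂ f₃ h₃] at e₃
  rw [card_ker_eq_aux f₃ f₄ h₄] at e₄
  rw [card_ker_eq_aux f₄ f₅ h₅] at e₅
  rw [card_ker_eq_aux f₅ f₆ h₆] at e₆
  rw [card_ker_eq_aux f₆ f₇ h₇] at e₇
  rw [card_ker_eq_aux f₇ f₈ h₈] at e₈
  have k₁ : Nat.card f₁.ker = 1 := by
    rw [(AddMonoidHom.ker_eq_bot_iff f₁).2 h₁]
    exact AddSubgroup.card_bot
  have k₉ : Nat.card f₈.range = Nat.card X₉ := by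
    rw [AddMonoidHom.range_eq_top.2 h₉]
    exact Nat.card_congr AddSubgroup.topEquiv.toEquiv
  rw [k₁, mul_one] at e₁
  rw [k₉] at e₈
  rw [e₁, e₂, e₃, e₄, e₅, e₆, e₇, e₈]
  ring

end Fermat.Agent.S56.E
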