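import Fermat.Agent.S56.E.Ar.Mono
import Fermat.Agent.S56.E.P.Unr
import Fermat.Agent.S56.E.P.VS

/-!
# S56 / E / key `S56/E-FIN` : `H¹(G_S, ρ)` is finite      (~350 lines, S55 layers A, D, D/Ar, C)

`hM : FinMod p (lvlS S) ρ`, `pPrime p ∈ S`.
PROOF.  (1) Choose `π` good for `ρ` (`D.exists_good S ρ hpS hM` : finite transitive `S`-smooth, stabilisers trivial on `ρ` and `μ_p`).  `eta : ρ → Fn π ρ` is injective; `D.ses_cok`; LES at `lvlS S`
(`H1c_i_eq_zero_iff`): the kernel of `H¹_S(ρ) → H¹_S(Fn π ρ)` is the image of `delta0` of the finite group `H⁰(coker)`.  So it suffices that `H¹_S(Fn π ρ)` is finite.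
(2) `Fn π ρ` is a retract of `Fn π' T`, `π' = π × Fin n` (`D.isInd_coset_aux`/`isInd_Fn_coset`, `IsInd` in S55/A/Tw; at the level `lvlS S`), `H1c_retract` ⇒ `H¹_S(Fn π ρ) ↪ H¹_S(Fn π' T)`; orbit decomposition (`H1_ext_orb`, S55/A/Orbit) ⇒ enough: `H¹_S(Fn π T)` finite for `π` good for `T`.
(3) `infl1` is injective (`D.infl1_injective`), `kumG` is surjective, and if `kumG a` is unramified outside `S` then `p ∣ ord_w (evF a)` for all `w ∉ SF F S` [= key `S56/E-UNR`, file `Ar/Unr.lean`: `ord_of_unram`].  So `H¹_S(Fn π T)` injects into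
`VS p (SF F S) / pows F p` which is finite (`C.EC hζ`: `relIndex ≠ 0`; `ζ_p ∈ F` by `G.exists_zeta`).
ALTERNATIVE for (3) without E-UNR: any other proof of finiteness is welcome.
-/

set_option autoImplicit false

noncomputable section

namespace Fermat.Agent.S56.E

open Fermat.Agent.S55 ExtCitation

variable {p : ℕ} [Fact p.Prime]

/-- finite kernel and finite target -/
theorem finite_of_ker_aux {X Y : Type*} [AddCommGroup X] [AddCommGroup Y] [Finite Y] (f : X →+ Y)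
    (hk : Finite f.ker) : Finite X := by
  have : Finite (X ⧸ f.ker) :=
    Finite.of_equiv _ (QuotientAddGroup.quotientKerEquivRange f).toEquiv.symm
  apply Nat.finite_of_card_ne_zero
  rw [AddSubgroup.card_eq_card_quotient_mul_card_addSubgroup f.ker]
  exact Nat.mul_ne_zero Nat.card_pos.ne' Nat.card_pos.ne'

/-- `H¹_S` grows with `S` -/
theorem finite_H1S_mono {S S' : Finset Nat.Primes} (h : S ⊆ S') {A : Type*} [AddCommGroup A]
    {ρ : GQ →* AddMonoid.End A} (hρ : Smooth (lvlS S) ρ) (hfin : Finite (H1 (lvlS S') ρ)) :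
    Finite (H1 (lvlS S) ρ) := by
  have hρ' : Smooth (lvlS S') ρ := fun a => by
    obtain ⟨U, hU, hu⟩ := hρ a
    exact ⟨U, lvlS_mono h hU, hu⟩
  have hex : ∀ x : H1 (lvlS S) ρ, ∃ y : H1 (lvlS S') ρ, infl1 S' ρ y = infl1 S ρ x := fun x =>
    (D.mem_range_infl1_iff S' ρ hρ' _).2 fun v hv =>
      (D.mem_range_infl1_iff S ρ hρ _).1 ⟨x, rfl⟩ v fun hvS => hv (h hvS)
  choose f hf using hex
  refine Finite.of_injective f fun a b hab => D.infl1_injective S ρ ?_
  rw [← hf a, ← hf b, hab]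

/-- the transitive case -/
theorem finite_H1S_trans {S : Finset Nat.Primes} (hpS : pPrime p ∈ S) {Sg : Type} [Fintype Sg]
    {π : GQ →* Equiv.Perm Sg} (htr : IsTrans π) (hπS : SmoothSet π (lvlS S)) :
    Finite (H1 (lvlS S) (Fn π (rhoT p))) := by
  classical
  obtain ⟨s0⟩ := htr.1
  have hπ : SmoothSet π lvlQ := by
    obtain ⟨U, hU, hu⟩ := hπS
    exact ⟨U, lvlS_sets_subset S hU, hu⟩
  haveI := G.numberField_fld hπ s0
  obtain ⟨S₁, hS₁⟩ := exists_gen_SF (G.fld π s0)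
  have hsub : S ⊆ S ∪ S₁ := Finset.subset_union_left
  have hπS' : SmoothSet π (lvlS (S ∪ S₁)) := by
    obtain ⟨U, hU, hu⟩ := hπS
    exact ⟨U, lvlS_mono hsub hU, hu⟩
  have hT : FinMod p (lvlS S) (rhoT p) := finMod_rhoChi (D.smooth_lvlS_rhoT p hpS)
  refine finite_H1S_mono hsub (hT.fn hπS).smooth ?_
  apply Nat.finite_of_card_ne_zero
  rw [card_H1S_Fn htr s0 hπ (hsub hpS) hπS',
    relIndex_pows_VS p _ (hS₁ _ Finset.subset_union_right)]
  have hpp : p.Prime := Fact.out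
  haveI : NeZero p := ⟨hpp.ne_zero⟩
  exact Nat.mul_ne_zero Nat.card_pos.ne' (pow_ne_zero _ hpp.ne_zero)

/-- arbitrary finite `G`-sets -/
theorem finite_H1S_Fn {S : Finset Nat.Primes} (hpS : pPrime p ∈ S) {Sg : Type} [Fintype Sg]
    {π : GQ →* Equiv.Perm Sg} (hπS : SmoothSet π (lvlS S)) :
    Finite (H1 (lvlS S) (Fn π (rhoT p))) := by
  haveI : ∀ o : Orb π, Finite (H1 (lvlS S) (Fn (orbPerm π o) (rhoT p))) := fun o =>
    finite_H1S_trans hpS (isTrans_orbPerm π o) (smoothSet_orbPerm π hπS o)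
  let f : H1 (lvlS S) (Fn π (rhoT p)) →+ ∀ o : Orb π, H1 (lvlS S) (Fn (orbPerm π o) (rhoT p)) :=
    AddMonoidHom.pi fun o => H1pullO π (lvlS S) (rhoT p) o
  refine Finite.of_injective f ((injective_iff_map_eq_zero f).2 fun x hx => ?_)
  exact H1_ext_orb π (lvlS S) (rhoT p) fun o => congrFun hx o

theorem finite_H1S (hp2 : p ≠ 2) {S : Finset Nat.Primes} (hpS : pPrime p ∈ S) {A : Type}
    [AddCommGroup A] {ρ : GQ →* AddMonoid.End A} (hM : FinMod p (lvlS S) ρ) :
    Finite (H1 (lvlS S) ρ) := by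
  have hχ : Smooth (lvlS S) (rhoChi (cycloChar p)) := D.smooth_lvlS_rhoT p hpS
  obtain ⟨U, hU, -, h1, h2⟩ := exists_trivOn hχ hM
  haveI := (lvlS S).fin U hU
  haveI : Fintype (GQ ⧸ U) := Fintype.ofFinite _
  have hπ : SmoothSet (cosetPerm U) (lvlS S) := smoothSet_cosetPerm hU
  have hFn : FinMod p (lvlS S) (Fn (cosetPerm U) ρ) := hM.fn hπ
  -- `H¹_S (Fn π ρ)` is finite
  have hfin1 : Finite (H1 (lvlS S) (Fn (cosetPerm U) ρ)) := by
    obtain ⟨Sg, _, π, a, b, hπ', ha, hb, hab⟩ := isInd_Fn_coset (χ := cycloChar p) hM hU h1 h2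
    haveI : Finite (H1 (lvlS S) (Fn π (rhoChi (cycloChar p)))) := finite_H1S_Fn hpS hπ'
    exact Finite.of_injective (H1c (lvlS S) ha) (Function.LeftInverse.injective
      (g := H1c (lvlS S) hb) (H1c_retract (lvlS S) ha hb hab))
  -- the kernel of `H¹_S ρ → H¹_S (Fn π ρ)`
  have hinj : Function.Injective (eta (GQ ⧸ U) A) := fun a b hab =>
    congrFun hab ((1 : GQ) : GQ ⧸ U)
  have Ss := D.ses_cok (isHom_eta (cosetPerm U) ρ) hinj
  haveI := hFn.fin
  refine finite_of_ker_aux (H1c (lvlS S) Ss.hi) ?_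
  have hsurj : ∀ x : ↥(H1c (lvlS S) Ss.hi).ker, ∃ c, delta0 Ss hFn.smooth c = x.1 := fun x =>
    (H1c_i_eq_zero_iff Ss hFn.smooth x.1).1 x.2
  choose g hg using hsurj
  exact Finite.of_injective g fun a b hab => Subtype.ext (by rw [← hg a, ← hg b, hab])

end Fermat.Agent.S56.E
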