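import Fermat.Agent.S56.E.Defs

/-!
# S56 / E / key `S56/E-H2S` : the order of `H2S S ρ`      (~350 lines, S55 formalism: `D/InputsA.lean`, `A/LinAlg.lean`)

`ρ` finite `p`-torsion smooth, `ρ' = dualRho χ ρ`, `χ = cycloChar p`, `S` any finite set of primes, NONEMPTY is not needed for the formula:
   `#H2S(ρ) * #H⁰(G, ρ') = #Ш²_all(ρ) * ∏_{v ∈ S} #H⁰(D_v, ρ')`.
PROOF.  `loc : H2S S ρ → Π_{v ∈ S} H²(D_v, ρ)`, `x ↦ (loc2 ρ v x)_v`; kernel `= ShaA2 lvlQ Dq ρ` (`loc2 = res2` by definition; finite by `dual_all`).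
Pairing `Π_{v∈S} H²(D_v,ρ) × H⁰(G,ρ') → 𝔽_p`, `⟨z, φ⟩ = ∑_{v∈S} tloc dat v (hφ.res _) (z v)`.
 * the image of `loc` is EXACTLY the annihilator of `H⁰(G,ρ')`: `⊆` = `D.recip` (the terms `v ∉ S` vanish), `⊇` = `D.glob2` (extend `z` by `0` outside `S`; the resulting `w` is in `H2S`).
 * `H²(D_v,ρ) → Hom(H⁰(D_v,ρ'), 𝔽_p)` is bijective (`D.loc2_inj`, `D.loc2_surj`), so `#H²(D_v,ρ) = #H⁰(D_v,ρ')` (`LA.card_dual`).
 * if `S ≠ ∅`: `H⁰(G,ρ') → Π_{v∈S} H⁰(D_v,ρ')` is injective, so the annihilator of `H⁰(G,ρ')` in `Π H²(D_v,ρ) = (Π H⁰(D_v,ρ'))^∨` has index `#H⁰(G,ρ')`  (`LA.card_eq_of_pairing`/`LA.exists_extend`).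
   We ASSUME `pPrime p ∈ S`.
`H0 (rv Dq (dualRho χ ρ) v)` is the same subgroup of `A →+ ZMod p` as `H0 (dualRho (χ.comp (Dq v).subtype) (rv Dq ρ v))` (`Iff.rfl`/`rfl`; membership = `IsHom (rv Dq ρ v) (D.Tv p v) φ`, `mem_H0_dualRho`).
-/

set_option autoImplicit false

noncomputable section

namespace Fermat.Agent.S56.E

open Fermat.Agent.S55 ExtCitation

variable {p : ℕ} [Fact p.Prime]

/-- abstract counting -/
theorem card_H2S_aux {X P W : Type*} [AddCommGroup X] [AddCommGroup P] [AddCommGroup W] [Finite P]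
    [Finite W] (hW : ∀ w : W, p • w = 0) (loc : X →+ P) (Ψ : P →+ W →+ ZMod p)
    (hex : ∀ z, Ψ z = 0 ↔ z ∈ loc.range) (hsurj : Function.Surjective Ψ) (hker : Finite loc.ker) :
    Finite X ∧ Nat.card X * Nat.card W = Nat.card loc.ker * Nat.card P := by
  have : Finite (X ⧸ loc.ker) :=
    Finite.of_equiv _ (QuotientAddGroup.quotientKerEquivRange loc).toEquiv.symm
  have hX : Nat.card X = Nat.card loc.range * Nat.card loc.ker := by
    rw [AddSubgroup.card_eq_card_quotient_mul_card_addSubgroup loc.ker,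
      Nat.card_congr (QuotientAddGroup.quotientKerEquivRange loc).toEquiv]
  have hfinX : Finite X := by
    apply Nat.finite_of_card_ne_zero
    rw [hX]
    exact Nat.mul_ne_zero Nat.card_pos.ne' Nat.card_pos.ne'
  refine ⟨hfinX, ?_⟩
  have hk : Ψ.ker = loc.range := by
    ext z
    rw [AddMonoidHom.mem_ker, hex]
  have hP : Nat.card P = Nat.card W * Nat.card loc.range := by
    rw [AddSubgroup.card_eq_card_quotient_mul_card_addSubgroup Ψ.ker,
      Nat.card_congr (QuotientAddGroup.quotientKerEquivOfSurjective Ψ hsurj).toEquiv,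
      LA.card_dual hW, hk]
  rw [hX, hP]
  ring

theorem card_H2S (hp2 : p ≠ 2) {S : Finset Nat.Primes} (hpS : pPrime p ∈ S) {A : Type}
    [AddCommGroup A] {ρ : GQ →* AddMonoid.End A} (hM : FinMod p lvlQ ρ) :
    Finite (H2S S ρ) ∧
      Nat.card (H2S S ρ) * Nat.card (H0 (dualRho (cycloChar p) ρ)) =
        Nat.card (ShaA2 lvlQ Dq ρ) * ∏ v ∈ S, Nat.card (H0 (rv Dq (dualRho (cycloChar p) ρ) v)) := by
  classical
  obtain ⟨dat⟩ := datumQ p hp2
  haveI : Nonempty Nat.Primes := ⟨pPrime p⟩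
  haveI := hM.fin
  haveI : Finite (A →+ ZMod p) := LA.finite_dual
  have hχ : Smooth lvlQ (rhoChi (cycloChar p)) := smooth_rhoT p
  have hχv : ∀ v : Nat.Primes, Smooth (lvlD v) (rhoChi ((cycloChar p).comp (Dq v).subtype)) :=
    fun v => hχ.res lvlQ (Dq v).subtype
  have hMv : ∀ v : Nat.Primes, FinMod p (lvlD v) (rv Dq ρ v) := fun v =>
    ⟨hM.fin, hM.tors, S55.E.smooth_Dq hM.smooth v⟩
  obtain ⟨hsha, -, -⟩ := dual_all hχ dat hM.tors ρ hM.smooth
  -- the local groups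
  have hbij : ∀ v : Nat.Primes, Function.Bijective ((dat.loc v).pair (rv Dq ρ v)) := fun v =>
    (dat.loc v).pair_bijective (hχv v) (hMv v)
  have hW0 : ∀ v : Nat.Primes, ∀ w : ↥(H0 (rv Dq (dualRho (cycloChar p) ρ) v)), p • w = 0 :=
    fun v w => Subtype.ext (LA.nsmul_dual w.1)
  have hfin2 : ∀ v : Nat.Primes, Finite (H2 (lv lvlQ Dq v) (rv Dq ρ v)) := fun v =>
    Finite.of_injective _ (hbij v).1
  have hcard2 : ∀ v : Nat.Primes, Nat.card (H2 (lv lvlQ Dq v) (rv Dq ρ v)) =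
      Nat.card (H0 (rv Dq (dualRho (cycloChar p) ρ) v)) := fun v => by
    exact (Nat.card_congr (Equiv.ofBijective _ (hbij v))).trans (LA.card_dual (hW0 v))
  haveI : ∀ v : ↥S, Finite (H2 (lv lvlQ Dq v.1) (rv Dq ρ v.1)) := fun v => hfin2 v.1
  -- the maps
  let loc : ↥(H2S S ρ) →+ (∀ v : ↥S, H2 (lv lvlQ Dq v.1) (rv Dq ρ v.1)) :=
    AddMonoidHom.pi fun v => (res2 lvlQ ρ (Dq v.1).subtype).comp (H2S S ρ).subtype
  let Ψ : (∀ v : ↥S, H2 (lv lvlQ Dq v.1) (rv Dq ρ v.1)) →+ ↥(H0 (dualRho (cycloChar p) ρ)) →+ ZMod p :=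
    ∑ v : ↥S, (dat.lp ρ v.1).comp (Pi.evalAddMonoidHom (fun v : ↥S => H2 (lv lvlQ Dq v.1) (rv Dq ρ v.1)) v)
  have hΨ : ∀ z φ, Ψ z φ = ∑ v : ↥S, dat.lp ρ v.1 (z v) φ := fun z φ => by
    simp only [Ψ, AddMonoidHom.finsetSum_apply, AddMonoidHom.comp_apply]
    rfl
  -- families supported in `S`
  have hgp : ∀ (z' : ∀ v, H2 (lv lvlQ Dq v) (rv Dq ρ v)), (∀ v ∉ S, z' v = 0) → ∀ φ,
      dat.gp ρ z' φ = ∑ v : ↥S, dat.lp ρ v.1 (z' v.1) φ := fun z' hz' φ => by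
    rw [Datum.gp, finsum_eq_sum_of_support_subset (s := S) _ (fun v hv => by
      by_contra hvS
      apply hv
      show dat.lp ρ v (z' v) φ = 0
      rw [hz' v hvS, map_zero]
      rfl)]
    exact (Finset.sum_coe_sort S (fun v => dat.lp ρ v (z' v) φ)).symm
  have hex : ∀ z, Ψ z = 0 ↔ z ∈ loc.range := by
    intro z
    constructor
    · intro hz
      let z' : ∀ v, H2 (lv lvlQ Dq v) (rv Dq ρ v) := fun v => if h : v ∈ S then z ⟨v, h⟩ else 0
      have hz'0 : ∀ v ∉ S, z' v = 0 := fun v hv => dif_neg hv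
      have hz'S : ∀ v : ↥S, z' v.1 = z v := fun v => dif_pos v.2
      have hFS : FS (𝓛 := lvlQ) (D := Dq) (ρ := ρ) z' := by
        refine S.finite_toSet.subset fun v hv => ?_
        by_contra hvS
        exact hv (hz'0 v hvS)
      obtain ⟨x, hx⟩ := dat.glob hχ hM z' hFS (fun φ => by
        rw [hgp z' hz'0 φ]
        have h1 : Ψ z φ = 0 := by rw [hz]; rfl
        rw [hΨ] at h1
        rw [← h1]
        exact Finset.sum_congr rfl fun v _ => by rw [hz'S v])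
      have hx' : ∀ v, res2 lvlQ ρ (Dq v).subtype x = z' v := fun v => congrFun hx v
      refine ⟨⟨x, fun v hv => (hx' v).trans (hz'0 v hv)⟩, funext fun v => ?_⟩
      exact (hx' v.1).trans (hz'S v)
    · rintro ⟨x, rfl⟩
      ext φ
      rw [hΨ]
      have h1 := dat.recip' x.1 φ
      rw [hgp (locAll lvlQ Dq ρ x.1) (fun v hv => x.2 v hv) φ] at h1
      exact h1
  have hsurj : Function.Surjective Ψ := by
    intro l
    obtain ⟨m, hm⟩ := LA.exists_extend_of_injective (hW0 (pPrime p))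
      (res0 (dualRho (cycloChar p) ρ) (Dq (pPrime p)).subtype)
      (fun a b hab => Subtype.ext (congrArg (fun w : ↥(H0 (rv Dq (dualRho (cycloChar p) ρ)
        (pPrime p))) => (w : A →+ ZMod p)) hab)) l
    obtain ⟨y, hy⟩ := (hbij (pPrime p)).2 m
    refine ⟨Pi.single (⟨pPrime p, hpS⟩ : ↥S) y, ?_⟩
    ext φ
    rw [hΨ, Finset.sum_eq_single (⟨pPrime p, hpS⟩ : ↥S), Pi.single_eq_same]
    · rw [← hm φ, ← hy]
      rfl
    · intro v _ hv
      rw [Pi.single_eq_of_ne hv, map_zero]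
      rfl
    · intro h
      exact absurd (Finset.mem_univ _) h
  have hkeq : ↥loc.ker ≃ ↥(ShaA2 lvlQ Dq ρ) :=
    { toFun := fun x => ⟨x.1.1, fun v => by
        by_cases hv : v ∈ S
        · exact congrFun (AddMonoidHom.mem_ker.1 x.2) ⟨v, hv⟩
        · exact x.1.2 v hv⟩
      invFun := fun x => ⟨⟨x.1, fun v _ => x.2 v⟩, AddMonoidHom.mem_ker.2 (funext fun v => x.2 v.1)⟩
      left_inv := fun x => rfl
      right_inv := fun x => rfl }
  have hkfin : Finite loc.ker := Finite.of_equiv _ hkeq.symm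
  obtain ⟨h1, h2⟩ := card_H2S_aux (p := p)
    (fun w : ↥(H0 (dualRho (cycloChar p) ρ)) => Subtype.ext (LA.nsmul_dual w.1)) loc Ψ hex hsurj hkfin
  refine ⟨h1, ?_⟩
  rw [h2, Nat.card_congr hkeq, Nat.card_pi]
  congr 1
  rw [← Finset.prod_coe_sort S (fun v => Nat.card (H0 (rv Dq (dualRho (cycloChar p) ρ) v)))]
  exact Finset.prod_congr rfl fun v _ => hcard2 v.1

end Fermat.Agent.S56.E
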