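import Fermat.Agent.S56.E.Ar.Mono

/-!
# S56 / E / key `S56/E-LARGE` : for `S` large, `RQ S ρ = 0`, `KK S ρ = 0`, `Ш¹_S(ρ') = Ш¹_all(ρ')`      (~250 lines, S55/D)

`hM : FinMod p (lvlS S₀) ρ`, `ρ' = dualRho χ ρ`.  `D.card_RQ dat hp2 hpS hM` : `#RQ_S(ρ) * #Ш¹_all(ρ') = #Ш¹_S(ρ')` (all finite) for every `S ⊇ S₀` (`FinMod.mono`).
`infl1 S ρ'` is injective (`D.infl1_injective`); inside `H¹(G_ℚ, ρ')` put `Σ_S := infl1 (Sha1S S ρ') = {x | x unramified outside S, loc1 v x = 0 ∀ v ∈ S}` (`D.mem_range_infl1_iff`; `ρ'` is `S`-smooth: `D.smooth_lvlS_dualRho`).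
 * `S ⊆ S'` ⇒ `Σ_{S'} ⊆ Σ_S` (`loc1 v x = 0` ⇒ unramified at `v`);  `ShaA1 ⊆ Σ_S` for all `S`.
 * `Σ_{S₀}` is finite; for each `x ∈ Σ_{S₀} \ ShaA1` choose `v_x` with `loc1 v_x x ≠ 0`; `S₁ := S₀ ∪ {v_x}`.  For `S ⊇ S₁`: `Σ_S = ShaA1`, so `#Ш¹_S(ρ') = #Ш¹_all(ρ')`, hence `#RQ_S(ρ) = 1`, and `KK S ρ ≃+ RQ S ρ` (`D.exists_equiv_KK`).
(`loc1 ρ v = res1 lvlQ ρ (Dq v).subtype` by definition.)
-/

set_option autoImplicit false

noncomputable section

namespace Fermat.Agent.S56.E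

open Fermat.Agent.S55 ExtCitation

variable {p : ℕ} [Fact p.Prime]

theorem exists_large (hp2 : p ≠ 2) {S₀ : Finset Nat.Primes} (hpS : pPrime p ∈ S₀) {A : Type}
    [AddCommGroup A] {ρ : GQ →* AddMonoid.End A} (hM : FinMod p (lvlS S₀) ρ) :
    ∃ S₁ : Finset Nat.Primes, S₀ ⊆ S₁ ∧ ∀ S : Finset Nat.Primes, S₁ ⊆ S →
      Subsingleton (D.RQ S ρ) ∧ D.KK S ρ = ⊥ ∧ Finite (Sha1S S (dualRho (cycloChar p) ρ)) ∧
      Nat.card (Sha1S S (dualRho (cycloChar p) ρ)) =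
        Nat.card (ShaA1 lvlQ Dq (dualRho (cycloChar p) ρ)) := by
  classical
  obtain ⟨dat⟩ := datumQ p hp2
  haveI := hM.fin
  have hsm : ∀ S : Finset Nat.Primes, S₀ ⊆ S → Smooth (lvlS S) (dualRho (cycloChar p) ρ) :=
    fun S hS => D.smooth_lvlS_dualRho p (hS hpS) (FinMod.mono hS hM).smooth
  obtain ⟨-, hfin0, -⟩ := D.card_RQ dat hp2 hpS hM
  -- the finite set `Σ_{S₀}`
  have hSgfin : (Set.range fun y : ↥(Sha1S S₀ (dualRho (cycloChar p) ρ)) =>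
      infl1 S₀ (dualRho (cycloChar p) ρ) y.1).Finite := Set.finite_range _
  let vx : H1 lvlQ (dualRho (cycloChar p) ρ) → Nat.Primes := fun x =>
    if h : ∃ v, loc1 (dualRho (cycloChar p) ρ) v x ≠ 0 then h.choose else pPrime p
  have hvx : ∀ x, (∃ v, loc1 (dualRho (cycloChar p) ρ) v x ≠ 0) →
      loc1 (dualRho (cycloChar p) ρ) (vx x) x ≠ 0 := fun x h => by
    have h1 : vx x = h.choose := dif_pos h
    rw [h1]
    exact h.choose_spec
  refine ⟨S₀ ∪ hSgfin.toFinset.image vx, Finset.subset_union_left, fun S hS => ?_⟩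
  have hS0 : S₀ ⊆ S := Finset.subset_union_left.trans hS
  have hMS : FinMod p (lvlS S) ρ := FinMod.mono hS0 hM
  obtain ⟨hRQ, hfinS, hcard⟩ := D.card_RQ dat hp2 (hS0 hpS) hMS
  -- the bijection
  have hmem : ∀ y : ↥(Sha1S S (dualRho (cycloChar p) ρ)),
      infl1 S (dualRho (cycloChar p) ρ) y.1 ∈ ShaA1 lvlQ Dq (dualRho (cycloChar p) ρ) := by
    intro y
    by_contra hne
    have hex : ∃ v, loc1 (dualRho (cycloChar p) ρ) v (infl1 S (dualRho (cycloChar p) ρ) y.1) ≠ 0 := by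
      by_contra hall
      exact hne fun v => by
        by_contra hv
        exact hall ⟨v, hv⟩
    have h1 := (D.mem_range_infl1_iff S _ (hsm S hS0) _).1 ⟨y.1, rfl⟩
    obtain ⟨y0, hy0⟩ := (D.mem_range_infl1_iff S₀ _ (hsm S₀ (Finset.Subset.refl _))
      (infl1 S (dualRho (cycloChar p) ρ) y.1)).2 (fun v _ => by
        by_cases hvS : v ∈ S
        · rw [y.2 v hvS]; exact zero_mem _
        · exact h1 v hvS)
    have hy0' : y0 ∈ Sha1S S₀ (dualRho (cycloChar p) ρ) := fun v hv => by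
      rw [hy0]; exact y.2 v (hS0 hv)
    have h2 : vx (infl1 S (dualRho (cycloChar p) ρ) y.1) ∈ S :=
      hS (Finset.mem_union_right _ (Finset.mem_image_of_mem _
        (hSgfin.mem_toFinset.2 ⟨⟨y0, hy0'⟩, hy0⟩)))
    exact hvx _ hex (y.2 _ h2)
  let f : ↥(Sha1S S (dualRho (cycloChar p) ρ)) → ↥(ShaA1 lvlQ Dq (dualRho (cycloChar p) ρ)) :=
    fun y => ⟨infl1 S (dualRho (cycloChar p) ρ) y.1, hmem y⟩
  have hf : Function.Bijective f := by
    constructor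
    · intro a b hab
      exact Subtype.ext (D.infl1_injective S _ (congrArg Subtype.val hab))
    · intro x
      obtain ⟨y, hy⟩ := (D.mem_range_infl1_iff S _ (hsm S hS0) x.1).2 (fun v _ => by
        have h3 : loc1 (dualRho (cycloChar p) ρ) v x.1 = 0 := x.2 v
        rw [h3]; exact zero_mem _)
      exact ⟨⟨y, fun v _ => by rw [hy]; exact x.2 v⟩, Subtype.ext hy⟩
  have hc : Nat.card (Sha1S S (dualRho (cycloChar p) ρ)) =
      Nat.card (ShaA1 lvlQ Dq (dualRho (cycloChar p) ρ)) := Nat.card_congr (Equiv.ofBijective f hf)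
  have hpos : 0 < Nat.card (Sha1S S (dualRho (cycloChar p) ρ)) := Nat.card_pos
  have hone : Nat.card (D.RQ S ρ) = 1 := by
    rw [← hc] at hcard
    exact Nat.eq_of_mul_eq_mul_right hpos (by rw [hcard, one_mul])
  have hsub : Subsingleton (D.RQ S ρ) := (Nat.card_eq_one_iff_unique.1 hone).1
  obtain ⟨e⟩ := D.exists_equiv_KK (hS0 hpS) hMS
  have hsub2 : Subsingleton ↥(D.KK S ρ) := e.toEquiv.subsingleton
  exact ⟨hsub, AddSubgroup.eq_bot_of_subsingleton _, hfinS, hc⟩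

end Fermat.Agent.S56.E
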