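import Fermat.Agent.S56.E.Ar.Nine
import Fermat.Agent.S56.E.Ar.Exact9
import Fermat.Agent.S56.E.Ar.Fin
import Fermat.Agent.S56.E.Ar.H2S
import Fermat.Agent.S56.E.Ar.Large

/-!
# S56 / E / keys `S56/E-MINEX`, `S56/E-ADD` : additivity of `lam`

## `card_minus_ses` (E-MINEX, ~80 lines): `c² = 1`, `p` odd, `B` finite `p`-torsion: `0 → A⁻ → B⁻ → C⁻ → 0` is exact.  Surjectivity: `x ∈ C⁻`, `j b = x`, `b' := ((p+1)/2) • (b - c b)`; `c b' = -b'`, `j b' = ((p+1)/2) • 2x = x`.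
 Count: `AddSubgroup.card_eq_card_quotient_mul_card_addSubgroup` / first isomorphism theorem for `B⁻ → C⁻`, kernel `≃ A⁻`.
## `card_nine` (E-ADD part 1, ~250 lines): `card_exact9` with `X₁..X₉ = H0 ρA, H0 ρB, H0 ρC, H1 (lvlS S) ρA, H1 (lvlS S) ρB, H1 (lvlS S) ρC, ↥(H2S S ρA), ↥(H2S S ρB), ↥(H2S S ρC)`,
 maps `H0c`, `H0c`, `delta0 Ss hB.smooth`, `H1c (lvlS S)`, `H1c (lvlS S)`, `x ↦ ⟨delta1 Ss _ (infl1 S ρC x), delta_mem_H2S ..⟩`, `H2c lvlQ` restricted (`H2c_mem_H2S`; `AddMonoidHom.codRestrict`/`AddMonoidHom.restrict`).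
 Exactness: `H⁰`: direct (`Ss.inj`, `Ss.exact`); `delta0_eq_zero_iff`, `H1c_i_eq_zero_iff`, `H1c_j_eq_zero_iff` at `lvlS S`; at `H¹_S C`: `⇐` `delta1_eq_zero_iff` at `lvlQ` + `infl1` commutes with `H1c` , `⇒` `exact_H1C`;
 at `H2S A`: `⇒` `exact_H2A`, `⇐` `H2c_i_eq_zero_iff`; at `H2S B`: `exact_H2B`, `H2c_j_eq_zero_iff`; `surj_H2C`.  Finiteness: `finite_H1S`, `card_H2S`, submodules of finite groups.
## `lam_add` (E-ADD part 2, ~120 lines): `exists_large` for `ρA, ρB, ρC` (`Ss.finModA`, `Ss.finModC`), `S₁` = union.  For `S ⊇ S₁`: `card_nine` + `card_minus_ses` (`complexConjugation_mul_self`), all cardinalities are `≠ 0`; `padicValNat.mul`; `lamS p S ρB = lamS p S ρA + lamS p S ρC` by `omega`/`linarith` after `push_cast`.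
 Germs: `lam p ρA + lam p ρC = ↑(fun S => lamS p S ρA + lamS p S ρC)` (`Filter.Germ.coe_add`), `Filter.Germ.coe_eq`, `Filter.eventually_atTop`.
-/

set_option autoImplicit false

noncomputable section

namespace Fermat.Agent.S56.E

open Fermat.Agent.S55 ExtCitation

variable {p : ℕ} [Fact p.Prime]
  {A B C : Type} [AddCommGroup A] [AddCommGroup B] [AddCommGroup C]

theorem card_minus_ses (hp2 : p ≠ 2) {G : Type} [Group G] {ρA : G →* AddMonoid.End A}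
    {ρB : G →* AddMonoid.End B} {ρC : G →* AddMonoid.End C} {i : A →+ B} {j : B →+ C}
    (Ss : SES ρA ρB ρC i j) [Finite B] (hB : ∀ b : B, p • b = 0) (c : G) (hc : c * c = 1) :
    Nat.card (minus ρB c) = Nat.card (minus ρA c) * Nat.card (minus ρC c) := by
  have hpp : p.Prime := Fact.out
  obtain ⟨k, hk⟩ : ∃ k, p = 2 * k + 1 := (hpp.eq_two_or_odd'.resolve_left hp2)
  have hC : ∀ x : C, p • x = 0 := fun x => by
    obtain ⟨b, rfl⟩ := Ss.surj x
    rw [← map_nsmul, hB, map_zero]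
  let J : ↥(minus ρB c) →+ ↥(minus ρC c) :=
    (j.comp (minus ρB c).subtype).codRestrict (minus ρC c) (fun b => by
      show ρC c (j b.1) = -(j b.1)
      rw [← Ss.hj, show ρB c b.1 = -b.1 from b.2, map_neg])
  have hJ : ∀ b, ((J b : ↥(minus ρC c)) : C) = j b.1 := fun _ => rfl
  have hsurj : Function.Surjective J := by
    intro x
    obtain ⟨b, hb⟩ := Ss.surj x.1
    have hcc : ρB c (ρB c b) = b := by
      have h1 := DFunLike.congr_fun (map_mul ρB c c) b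
      rw [hc, map_one] at h1
      exact h1.symm
    refine ⟨⟨(k + 1) • (b - ρB c b), ?_⟩, Subtype.ext ?_⟩
    · show ρB c ((k + 1) • (b - ρB c b)) = -((k + 1) • (b - ρB c b))
      rw [map_nsmul, map_sub, hcc, ← smul_neg, neg_sub]
    · rw [hJ]
      show j ((k + 1) • (b - ρB c b)) = x.1
      rw [map_nsmul, map_sub, Ss.hj, hb, show ρC c x.1 = -x.1 from x.2, sub_neg_eq_add, ← two_nsmul,
        smul_smul]
      have h1 : (k + 1) * 2 = p + 1 := by omega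
      rw [h1, add_smul, hC, zero_add, one_smul]
  have hker : ↥J.ker ≃ ↥(minus ρA c) :=
    Equiv.symm (Equiv.ofBijective
      (fun a : ↥(minus ρA c) => (⟨⟨i a.1, by
          show ρB c (i a.1) = -(i a.1)
          rw [← Ss.hi, show ρA c a.1 = -a.1 from a.2, map_neg]⟩,
        AddMonoidHom.mem_ker.2 (Subtype.ext (Ss.comp_eq_zero a.1))⟩ : ↥J.ker))
      ⟨fun a a' h => Subtype.ext (Ss.inj (congrArg (fun z : ↥J.ker => (z.1.1 : B)) h)),
        fun z => by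
          have h1 : j z.1.1 = 0 := congrArg Subtype.val (AddMonoidHom.mem_ker.1 z.2)
          obtain ⟨a, ha⟩ := (Ss.exact _).1 h1
          refine ⟨⟨a, Ss.inj ?_⟩, Subtype.ext (Subtype.ext ha)⟩
          rw [Ss.hi, ha, map_neg, ha]
          exact z.1.2⟩)
  rw [AddSubgroup.card_eq_card_quotient_mul_card_addSubgroup J.ker,
    Nat.card_congr (QuotientAddGroup.quotientKerEquivOfSurjective J hsurj).toEquiv,
    Nat.card_congr hker, mul_comm]

variable {ρA : GQ →* AddMonoid.End A} {ρB : GQ →* AddMonoid.End B} {ρC : GQ →* AddMonoid.End C}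
  {i : A →+ B} {j : B →+ C}

theorem card_nine (hp2 : p ≠ 2) {S : Finset Nat.Primes} (hpS : pPrime p ∈ S)
    (Ss : SES ρA ρB ρC i j) (hB : FinMod p (lvlS S) ρB) (hK : D.KK S ρA = ⊥)
    (hRB : Subsingleton (D.RQ S ρB)) (hRC : Subsingleton (D.RQ S ρC)) :
    Nat.card (H0 ρA) * Nat.card (H0 ρC) * Nat.card (H1 (lvlS S) ρB) * Nat.card (H2S S ρA) *
        Nat.card (H2S S ρC) =
      Nat.card (H0 ρB) * Nat.card (H1 (lvlS S) ρA) * Nat.card (H1 (lvlS S) ρC) *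
        Nat.card (H2S S ρB) := by
  have hA := Ss.finModA hB
  have hC := Ss.finModC hB
  haveI := hA.fin
  haveI := hB.fin
  haveI := hC.fin
  haveI : Finite (H1 (lvlS S) ρA) := finite_H1S hp2 hpS hA
  haveI : Finite (H1 (lvlS S) ρB) := finite_H1S hp2 hpS hB
  haveI : Finite (H1 (lvlS S) ρC) := finite_H1S hp2 hpS hC
  haveI : Finite (H2S S ρA) := (card_H2S hp2 hpS (D.finMod_lvlQ_aux hA)).1
  haveI : Finite (H2S S ρB) := (card_H2S hp2 hpS (D.finMod_lvlQ_aux hB)).1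
  haveI : Finite (H2S S ρC) := (card_H2S hp2 hpS (D.finMod_lvlQ_aux hC)).1
  have hBQ : Smooth lvlQ ρB := smooth_of_lvlS hB.smooth
  let f₆ : H1 (lvlS S) ρC →+ ↥(H2S S ρA) :=
    ((delta1 Ss hBQ).comp (infl1 S ρC)).codRestrict _ (fun x => delta_mem_H2S Ss hB x)
  let f₇ : ↥(H2S S ρA) →+ ↥(H2S S ρB) :=
    ((H2c lvlQ Ss.hi).comp (H2S S ρA).subtype).codRestrict _ (fun x => H2c_mem_H2S Ss.hi x.2)
  let f₈ : ↥(H2S S ρB) →+ ↥(H2S S ρC) :=
    ((H2c lvlQ Ss.hj).comp (H2S S ρB).subtype).codRestrict _ (fun x => H2c_mem_H2S Ss.hj x.2)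
  have hf₆ : ∀ x, ((f₆ x : ↥(H2S S ρA)) : H2 lvlQ ρA) = delta1 Ss hBQ (infl1 S ρC x) := fun _ => rfl
  have hf₇ : ∀ x, ((f₇ x : ↥(H2S S ρB)) : H2 lvlQ ρB) = H2c lvlQ Ss.hi x.1 := fun _ => rfl
  have hf₈ : ∀ x, ((f₈ x : ↥(H2S S ρC)) : H2 lvlQ ρC) = H2c lvlQ Ss.hj x.1 := fun _ => rfl
  refine card_exact9 (H0c Ss.hi) (H0c Ss.hj) (delta0 Ss hB.smooth) (H1c (lvlS S) Ss.hi)
    (H1c (lvlS S) Ss.hj) f₆ f₇ f₈ ?_ ?_ (delta0_eq_zero_iff Ss hB.smooth)
    (H1c_i_eq_zero_iff Ss hB.smooth) (H1c_j_eq_zero_iff Ss hB.smooth) ?_ ?_ ?_ ?_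
  · intro a a' h
    exact Subtype.ext (Ss.inj (congrArg (fun z : ↥(H0 ρB) => (z : B)) h))
  · intro x
    constructor
    · intro h
      have h1 : j x.1 = 0 := congrArg (fun z : ↥(H0 ρC) => (z : C)) h
      obtain ⟨a, ha⟩ := (Ss.exact _).1 h1
      refine ⟨⟨a, fun g => Ss.inj ?_⟩, Subtype.ext ha⟩
      rw [Ss.hi, ha]
      exact x.2 g
    · rintro ⟨y, rfl⟩
      exact Subtype.ext (Ss.comp_eq_zero y.1)
  · intro x
    constructor
    · intro h
      exact exact_H1C Ss hB hK x (by rw [← hf₆, h]; rfl)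
    · rintro ⟨y, rfl⟩
      refine Subtype.ext ?_
      rw [hf₆, D.H1c_infl1]
      exact (delta1_eq_zero_iff Ss hBQ _).2 ⟨_, rfl⟩
  · intro a
    constructor
    · intro h
      obtain ⟨x, hx⟩ := exact_H2A hp2 hpS Ss hB hRB a.1 a.2 (by rw [← hf₇, h]; rfl)
      exact ⟨x, Subtype.ext hx⟩
    · rintro ⟨x, rfl⟩
      refine Subtype.ext ?_
      rw [hf₇, hf₆]
      exact (H2c_i_eq_zero_iff Ss hBQ _).2 ⟨_, rfl⟩
  · intro b
    constructor
    · intro h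
      obtain ⟨a, ha, hab⟩ := exact_H2B hp2 hpS Ss hB hRC b.1 b.2 (by rw [← hf₈, h]; rfl)
      exact ⟨⟨a, ha⟩, Subtype.ext hab⟩
    · rintro ⟨a, rfl⟩
      refine Subtype.ext ?_
      rw [hf₈, hf₇]
      exact (H2c_j_eq_zero_iff Ss hBQ _).2 ⟨_, rfl⟩
  · intro c
    obtain ⟨b, hb, hbc⟩ := surj_H2C hp2 hpS Ss hB c.1 c.2
    exact ⟨⟨b, hb⟩, Subtype.ext hbc⟩

omit [AddCommGroup A] [AddCommGroup B] [AddCommGroup C] in
theorem lam_arith_aux {a0 b0 c0 a1 b1 c1 a2 b2 c2 am bm cm : ℕ} (ha0 : 0 < a0) (hb0 : 0 < b0)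
    (hc0 : 0 < c0) (ha1 : 0 < a1) (hb1 : 0 < b1) (hc1 : 0 < c1) (ha2 : 0 < a2) (hb2 : 0 < b2)
    (hc2 : 0 < c2) (ham : 0 < am) (hcm : 0 < cm)
    (h9 : a0 * c0 * b1 * a2 * c2 = b0 * a1 * c1 * b2) (hm : bm = am * cm) :
    ((padicValNat p b0 : ℤ) + padicValNat p b2 + padicValNat p bm - padicValNat p b1) =
      ((padicValNat p a0 : ℤ) + padicValNat p a2 + padicValNat p am - padicValNat p a1) +
        ((padicValNat p c0 : ℤ) + padicValNat p c2 + padicValNat p cm - padicValNat p c1) := by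
  have e1 := congrArg (padicValNat p) h9
  rw [padicValNat.mul (by positivity) hc2.ne', padicValNat.mul (by positivity) ha2.ne',
    padicValNat.mul (by positivity) hb1.ne', padicValNat.mul ha0.ne' hc0.ne',
    padicValNat.mul (by positivity) hb2.ne', padicValNat.mul (by positivity) hc1.ne',
    padicValNat.mul hb0.ne' ha1.ne'] at e1
  rw [hm, padicValNat.mul ham.ne' hcm.ne']
  omega

theorem lam_add (hp2 : p ≠ 2) {S₀ : Finset Nat.Primes} (hpS : pPrime p ∈ S₀)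
    (Ss : SES ρA ρB ρC i j) (hB : FinMod p (lvlS S₀) ρB) : lam p ρB = lam p ρA + lam p ρC := by
  classical
  obtain ⟨SA, hSA, hA⟩ := exists_large hp2 hpS (Ss.finModA hB)
  obtain ⟨SB, hSB, hB'⟩ := exists_large hp2 hpS hB
  obtain ⟨SC, hSC, hC⟩ := exists_large hp2 hpS (Ss.finModC hB)
  rw [lam, lam, lam, ← Filter.Germ.coe_add, Filter.Germ.coe_eq, Filter.EventuallyEq,
    Filter.eventually_atTop]
  refine ⟨SA ∪ SB ∪ SC, fun S hS => ?_⟩
  have hSA' : SA ⊆ S := (Finset.subset_union_left.trans Finset.subset_union_left).trans hS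
  have hSB' : SB ⊆ S := (Finset.subset_union_right.trans Finset.subset_union_left).trans hS
  have hSC' : SC ⊆ S := Finset.subset_union_right.trans hS
  have hS0 : S₀ ⊆ S := hSA.trans hSA'
  have hBS : FinMod p (lvlS S) ρB := FinMod.mono hS0 hB
  have hAS := Ss.finModA hBS
  have hCS := Ss.finModC hBS
  have hpS' : pPrime p ∈ S := hS0 hpS
  haveI := hAS.fin
  haveI := hBS.fin
  haveI := hCS.fin
  haveI : Finite (H1 (lvlS S) ρA) := finite_H1S hp2 hpS' hAS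
  haveI : Finite (H1 (lvlS S) ρB) := finite_H1S hp2 hpS' hBS
  haveI : Finite (H1 (lvlS S) ρC) := finite_H1S hp2 hpS' hCS
  haveI : Finite (H2S S ρA) := (card_H2S hp2 hpS' (D.finMod_lvlQ_aux hAS)).1
  haveI : Finite (H2S S ρB) := (card_H2S hp2 hpS' (D.finMod_lvlQ_aux hBS)).1
  haveI : Finite (H2S S ρC) := (card_H2S hp2 hpS' (D.finMod_lvlQ_aux hCS)).1
  have h9 := card_nine hp2 hpS' Ss hBS (hA S hSA').2.1 (hB' S hSB').1 (hC S hSC').1
  have hm := card_minus_ses hp2 Ss hBS.tors cc complexConjugation_mul_self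
  exact lam_arith_aux Nat.card_pos Nat.card_pos Nat.card_pos Nat.card_pos Nat.card_pos Nat.card_pos
    Nat.card_pos Nat.card_pos Nat.card_pos Nat.card_pos Nat.card_pos h9 hm

end Fermat.Agent.S56.E
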