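import Fermat.Agent.S56.E.Defs

/-!
# S56 / E / key `S56/E-MONO` : monotonicity in `S`, `p`-power cardinalities      (easy, ~120 lines)

* `lvlS_mono` : `IntermediateField.IsUnramifiedOutside` is monotone in `S` (unfold the definition in `Fermat/Prelude`/S55.E; see `S55/E/Lvl.lean`, `S55/E/Inertia.lean`).
* `card_eq_pow` : a finite abelian group killed by `p` has `p ^ padicValNat p (card)` elements (`LA.exists_equiv_fun` in S55/A/LinAlg gives `V ≃+ (Fin n → ZMod p)`).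
* `nsmul_H1`, `nsmul_H2` : `H^i` of a `p`-torsion module is `p`-torsion (on cocycles; cf. `S55.D.isoAux_nsmul_H1`).
-/

set_option autoImplicit false

noncomputable section

namespace Fermat.Agent.S56.E

open Fermat.Agent.S55 ExtCitation

theorem lvlS_mono {S S' : Finset Nat.Primes} (h : S ⊆ S') : (lvlS S).sets ⊆ (lvlS S').sets := by
  rintro _ ⟨F, hF, rfl⟩
  exact ⟨F, ⟨hF.1, fun q hq => hF.2 q fun hqS => hq (h hqS)⟩, rfl⟩

theorem FinMod.mono {p : ℕ} {S S' : Finset Nat.Primes} (h : S ⊆ S') {A : Type*} [AddCommGroup A]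
    {ρ : GQ →* AddMonoid.End A} (hM : FinMod p (lvlS S) ρ) : FinMod p (lvlS S') ρ :=
  ⟨hM.fin, hM.tors, fun a => by
    obtain ⟨U, hU, hu⟩ := hM.smooth a
    exact ⟨U, lvlS_mono h hU, hu⟩⟩

theorem card_eq_pow {p : ℕ} [Fact p.Prime] {X : Type*} [AddCommGroup X] [Finite X]
    (h : ∀ x : X, p • x = 0) : Nat.card X = p ^ padicValNat p (Nat.card X) := by
  obtain ⟨n, ⟨e⟩⟩ := LA.exists_equiv_fun (p := p) h
  have h1 : Nat.card X = p ^ n := by
    rw [Nat.card_congr e.toEquiv, Nat.card_fun, Nat.card_zmod, Nat.card_fin]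
  rw [h1, padicValNat.prime_pow]

theorem nsmul_H1 {p : ℕ} {G : Type*} [Group G] (𝓛 : Lvl G) {A : Type*} [AddCommGroup A]
    (ρ : G →* AddMonoid.End A) (h : ∀ a : A, p • a = 0) (x : H1 𝓛 ρ) : p • x = 0 := by
  obtain ⟨c, rfl⟩ := H1.mk_surjective 𝓛 ρ x
  rw [← map_nsmul]
  have : p • c = 0 := Subtype.ext (funext fun g => by
    rw [AddSubgroup.coe_nsmul, Pi.smul_apply, h]; rfl)
  rw [this, map_zero]

theorem nsmul_H2 {p : ℕ} {G : Type*} [Group G] (𝓛 : Lvl G) {A : Type*} [AddCommGroup A]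
    (ρ : G →* AddMonoid.End A) (h : ∀ a : A, p • a = 0) (x : H2 𝓛 ρ) : p • x = 0 := by
  obtain ⟨c, rfl⟩ := H2.mk_surjective 𝓛 ρ x
  rw [← map_nsmul]
  have : p • c = 0 := Subtype.ext (funext fun g => funext fun g' => by
    rw [AddSubgroup.coe_nsmul, Pi.smul_apply, Pi.smul_apply, h]; rfl)
  rw [this, map_zero]

end Fermat.Agent.S56.E
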