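import Fermat.Agent.S56.E.Ar.Mono

/-!
# S56 / E / key `S56/E-NINE` : exactness of the nine term sequence with `H2S`      (~450 lines, diagram chases in the S55 formalism)

`Ss : SES ρA ρB ρC i j` of finite `p`-torsion `S`-smooth modules, `δ = delta1 Ss _ : H¹(G_ℚ, C) → H²(G_ℚ, A)`.  The sequence
 `0 → H⁰A → H⁰B → H⁰C → H¹_S A → H¹_S B → H¹_S C --δ∘infl--> H2S A → H2S B → H2S C → 0`
is exact as soon as `KK S ρA = ⊥`, `RQ S ρB = 0`, `RQ S ρC = 0` (the part up to `H¹_S C` is the LES at the level `lvlS S`, `Coh/LES.lean`).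
* `delta_ur` : `y ∈ H1ur(C_v)` ⇒ `y = j_* x` (`D.H1ur_surjective`, `D.rho_Iq`) ⇒ `δ_v y = 0` (`delta1_eq_zero_iff`).
* `delta_mem_H2S` : `res2_delta1` (`loc2 = res2`, `loc1 = res1` by definition), `D.mem_range_infl1_iff`, `delta_ur`.
* `exact_H1C` : `infl2 (delta1 at lvlS) = delta1 at lvlQ ∘ infl1` (`delta1_natural` with `lvlMap_infl S`, all coefficient maps `id`), so `delta1_S x ∈ KK S ρA = ⊥`; `delta1_eq_zero_iff` at `lvlS S`.
* `exact_H2A` : `i_* a = 0` ⇒ `a = δ z`, `z ∈ H¹(G_ℚ,C)` (`H2c_i_eq_zero_iff`).  For `v ∉ S`: `δ_v (loc z) = loc a = 0` ⇒ `loc_v z = j_* n_v` (`delta1_eq_zero_iff` for `Ss.res`); for almost all `v`, `loc_v z ∈ H1ur`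
  (`z` comes from some level `lvlS S'`: every class of `H¹(lvlQ)` is inflated from some `lvlS S'`: its cocycle is `LC1 lvlQ`, i.e. factors through a number field, ramified at finitely many primes `D.finite_ramified`; or use
  that `{v | loc1 v z ∉ H1ur}` is finite, search S55/D for it: `locFam_mem_FamG`-like lemma) and then choose `n_v ∈ H1ur` (`D.H1ur_surjective`).  So `n ∈ FamG S ρB`; `RQ S ρB = 0` ⇒ `n ∈ GlobG` ⇒ (`D.mem_GlobG`) `∃ y, n_v - loc_v y ∈ H1ur ∀ v ∉ S`.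
  `z' := z - j_* y` is unramified outside `S` (`H1c` maps `H1ur` to `H1ur`: `D.H1c_mem_H1ur`), so `z' = infl1 x` (`D.mem_range_infl1_iff`), and `δ z' = δ z = a`.
* `exact_H2B` : `j_* b = 0` ⇒ `b = i_* a`.  For `v ∉ S`: `i_* loc_v a = 0` ⇒ `loc_v a = δ_v m_v`; `m_v := 0` where `loc_v a = 0` (almost all `v`: `D.finite_loc2`).  `m ∈ FamG S ρC`, `RQ S ρC = 0` ⇒ `∃ z, m_v - loc_v z ∈ H1ur ∀ v ∉ S`;
  `a' := a - δ z`: `loc_v a' = δ_v (m_v - loc_v z) = 0` (`delta_ur`), `i_* a' = b`.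
* `surj_H2C` : `c = j_* b` (`dat.re`: `Datum.re`/`A.Global.re` = right exactness of `H²(G_ℚ, -)`, see `S55/A/RE.lean` for `RE`).  For `v ∉ S`: `j_* loc_v b = 0` ⇒ `loc_v b = i_* a_v`, `a_v = 0` for almost all `v`.  Let `v₀ = pPrime p ∈ S`.
  The functional `φ ↦ - ∑_{v ∉ S} tloc dat v _ (a_v)` on `Hom_G(A, T)` extends to `l : (A →+ ZMod p) →+ ZMod p` (`LA.exists_extend`); `D.loc2_surj` at `v₀` gives `a_{v₀}` with `tloc dat v₀ _ a_{v₀} = l φ`; `a_v := 0` for the other `v ∈ S`.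
  `D.glob2` ⇒ `a ∈ H²(G_ℚ,A)` with these localisations; `b' := b - i_* a ∈ H2S S ρB`, `j_* b' = c`.
-/

set_option autoImplicit false

noncomputable section

namespace Fermat.Agent.S56.E

open Fermat.Agent.S55 ExtCitation

variable {p : ℕ} [Fact p.Prime] {S : Finset Nat.Primes}
  {A B C : Type} [AddCommGroup A] [AddCommGroup B] [AddCommGroup C]
  {ρA : GQ →* AddMonoid.End A} {ρB : GQ →* AddMonoid.End B} {ρC : GQ →* AddMonoid.End C}
  {i : A →+ B} {j : B →+ C}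

theorem delta_ur (Ss : SES ρA ρB ρC i j) (hB : FinMod p (lvlS S) ρB) {v : Nat.Primes} (hv : v ∉ S)
    (y : H1 (lvlD v) (rv Dq ρC v)) (hy : y ∈ D.H1ur v (rv Dq ρC v)) :
    delta1 (Ss.res (Dq v).subtype) ((smooth_of_lvlS hB.smooth).res lvlQ (Dq v).subtype) y = 0 := by
  haveI := hB.fin
  obtain ⟨x, -, hx⟩ := D.H1ur_surjective v (rv Dq ρB v) (rv Dq ρC v)
    ((smooth_of_lvlS hB.smooth).res lvlQ (Dq v).subtype)
    (fun i hi => D.rho_Iq hB.smooth hv i hi) (Ss.hj.res (Dq v).subtype) Ss.surj y hy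
  exact (delta1_eq_zero_iff (Ss.res (Dq v).subtype) _ y).2 ⟨x, hx⟩

theorem delta_mem_H2S (Ss : SES ρA ρB ρC i j) (hB : FinMod p (lvlS S) ρB) (x : H1 (lvlS S) ρC) :
    delta1 Ss (smooth_of_lvlS hB.smooth) (infl1 S ρC x) ∈ H2S S ρA := by
  intro v hv
  have h1 := res2_delta1 lvlQ Ss (smooth_of_lvlS hB.smooth) (Dq v).subtype (infl1 S ρC x)
  refine h1.trans (delta_ur Ss hB hv _ ?_)
  exact (D.mem_range_infl1_iff S ρC (Ss.finModC hB).smooth _).1 ⟨x, rfl⟩ v hv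

theorem H2c_mem_H2S {φ : A →+ B} (h : IsHom ρA ρB φ) {x : H2 lvlQ ρA} (hx : x ∈ H2S S ρA) :
    H2c lvlQ h x ∈ H2S S ρB := by
  intro v hv
  have h1 := res2_H2c lvlQ (Dq v).subtype h x
  refine h1.trans ?_
  have h2 : res2 lvlQ ρA (Dq v).subtype x = 0 := hx v hv
  rw [h2, map_zero]
  rfl

theorem exact_H1C (Ss : SES ρA ρB ρC i j) (hB : FinMod p (lvlS S) ρB) (hK : D.KK S ρA = ⊥)
    (x : H1 (lvlS S) ρC) (hx : delta1 Ss (smooth_of_lvlS hB.smooth) (infl1 S ρC x) = 0) :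
    ∃ y : H1 (lvlS S) ρB, H1c (lvlS S) Ss.hj y = x := by
  have h1 : infl2 S ρA (delta1 Ss hB.smooth x) =
      delta1 Ss (smooth_of_lvlS hB.smooth) (infl1 S ρC x) :=
    delta1_natural Ss hB.smooth Ss (smooth_of_lvlS hB.smooth) (lvlMap_infl S)
      (φA := AddMonoidHom.id A) (φB := AddMonoidHom.id B) (φC := AddMonoidHom.id C)
      (fun _ _ => rfl) (fun _ _ => rfl) (fun _ _ => rfl) (fun _ => rfl) (fun _ => rfl) x
  have h2 : delta1 Ss hB.smooth x ∈ D.KK S ρA := by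
    rw [D.mem_KK, h1, hx]
  rw [hK, AddSubgroup.mem_bot] at h2
  exact (delta1_eq_zero_iff Ss hB.smooth x).1 h2

theorem exact_H2A (hp2 : p ≠ 2) (hpS : pPrime p ∈ S) (Ss : SES ρA ρB ρC i j)
    (hB : FinMod p (lvlS S) ρB) (hR : Subsingleton (D.RQ S ρB)) (a : H2 lvlQ ρA) (ha : a ∈ H2S S ρA)
    (h0 : H2c lvlQ Ss.hi a = 0) :
    ∃ x : H1 (lvlS S) ρC, delta1 Ss (smooth_of_lvlS hB.smooth) (infl1 S ρC x) = a := by
  classical
  haveI := hB.fin
  have hBQ : Smooth lvlQ ρB := smooth_of_lvlS hB.smooth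
  obtain ⟨z, hz⟩ := (H2c_i_eq_zero_iff Ss hBQ a).1 h0
  have hex : ∀ v : Nat.Primes, ∃ n : H1 (lvlD v) (rv Dq ρB v),
      (v ∉ S → H1c (lvlD v) (Ss.hj.res (Dq v).subtype) n = loc1 ρC v z) ∧
      (v ∉ S → loc1 ρC v z ∈ D.H1ur v (rv Dq ρC v) → n ∈ D.H1ur v (rv Dq ρB v)) := by
    intro v
    by_cases hv : v ∈ S
    · exact ⟨0, fun h => absurd hv h, fun h => absurd hv h⟩
    by_cases hur : loc1 ρC v z ∈ D.H1ur v (rv Dq ρC v)
    · obtain ⟨x, hx1, hx2⟩ := D.H1ur_surjective v (rv Dq ρB v) (rv Dq ρC v)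
        (hBQ.res lvlQ (Dq v).subtype) (fun i hi => D.rho_Iq hB.smooth hv i hi)
        (Ss.hj.res (Dq v).subtype) Ss.surj _ hur
      exact ⟨x, fun _ => hx2, fun _ _ => hx1⟩
    · have h1 : delta1 (Ss.res (Dq v).subtype) (hBQ.res lvlQ (Dq v).subtype)
          (res1 lvlQ ρC (Dq v).subtype z) = 0 := by
        rw [← res2_delta1 lvlQ Ss hBQ (Dq v).subtype z, hz]
        exact ha v hv
      obtain ⟨y, hy⟩ := (delta1_eq_zero_iff (Ss.res (Dq v).subtype) _ _).1 h1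
      exact ⟨y, fun _ => hy, fun _ h => absurd h hur⟩
  choose n hn1 hn2 using hex
  have hnF : n ∈ D.FamG S ρB := by
    refine (D.locFam_mem_FamG S ρC z).subset ?_
    rintro v ⟨hv, hnv⟩
    exact ⟨hv, fun h => hnv (hn2 v hv h)⟩
  have hnG : n ∈ D.GlobG S ρB := by
    have h1 : ((⟨n, hnF⟩ : ↥(D.FamG S ρB)) : D.RQ S ρB) = 0 := Subsingleton.elim _ _
    rw [QuotientAddGroup.eq_zero_iff] at h1
    exact h1
  obtain ⟨y, hy⟩ := (D.mem_GlobG S ρB).1 hnG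
  obtain ⟨x, hx⟩ := (D.mem_range_infl1_iff S ρC (Ss.finModC hB).smooth
    (z - H1c lvlQ Ss.hj y)).2 (fun v hv => by
      have h1 : loc1 ρC v (z - H1c lvlQ Ss.hj y) =
          H1c (lvlD v) (Ss.hj.res (Dq v).subtype) (n v - loc1 ρB v y) := by
        rw [map_sub, map_sub, hn1 v hv]
        congr 1
        exact res1_H1c lvlQ (Dq v).subtype Ss.hj y
      rw [h1]
      exact D.H1c_mem_H1ur v _ (hy v hv))
  refine ⟨x, ?_⟩
  rw [hx, map_sub, hz, (delta1_eq_zero_iff Ss hBQ _).2 ⟨y, rfl⟩, sub_zero]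

theorem exact_H2B (hp2 : p ≠ 2) (hpS : pPrime p ∈ S) (Ss : SES ρA ρB ρC i j)
    (hB : FinMod p (lvlS S) ρB) (hR : Subsingleton (D.RQ S ρC)) (b : H2 lvlQ ρB) (hb : b ∈ H2S S ρB)
    (h0 : H2c lvlQ Ss.hj b = 0) : ∃ a ∈ H2S S ρA, H2c lvlQ Ss.hi a = b := by
  classical
  obtain ⟨dat⟩ := datumQ p hp2
  have hBQ : Smooth lvlQ ρB := smooth_of_lvlS hB.smooth
  have hAQ : FinMod p lvlQ ρA := D.finMod_lvlQ_aux (Ss.finModA hB)
  obtain ⟨a, ha⟩ := (H2c_j_eq_zero_iff Ss hBQ b).1 h0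
  have hex : ∀ v : Nat.Primes, ∃ m : H1 (lvlD v) (rv Dq ρC v),
      (v ∉ S → delta1 (Ss.res (Dq v).subtype) (hBQ.res lvlQ (Dq v).subtype) m = loc2 ρA v a) ∧
      (loc2 ρA v a = 0 → m = 0) := by
    intro v
    by_cases h0' : loc2 ρA v a = 0
    · exact ⟨0, fun _ => (map_zero _).trans h0'.symm, fun _ => rfl⟩
    by_cases hv : v ∈ S
    · exact ⟨0, fun h => absurd hv h, fun _ => rfl⟩
    · have h1 : H2c (lvlQ.comap (Dq v).subtype) (Ss.hi.res (Dq v).subtype)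
          (res2 lvlQ ρA (Dq v).subtype a) = 0 := by
        rw [← res2_H2c lvlQ (Dq v).subtype Ss.hi a, ha]
        exact hb v hv
      obtain ⟨m, hm⟩ := (H2c_i_eq_zero_iff (Ss.res (Dq v).subtype)
        (hBQ.res lvlQ (Dq v).subtype) _).1 h1
      exact ⟨m, fun _ => hm, fun h => absurd h h0'⟩
  choose m hm1 hm2 using hex
  have hmF : m ∈ D.FamG S ρC := by
    refine (D.finite_loc2 dat ρA hAQ a).subset ?_
    rintro v ⟨-, hnv⟩ h
    apply hnv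
    rw [hm2 v h]
    exact zero_mem _
  have hmG : m ∈ D.GlobG S ρC := by
    have h1 : ((⟨m, hmF⟩ : ↥(D.FamG S ρC)) : D.RQ S ρC) = 0 := Subsingleton.elim _ _
    rw [QuotientAddGroup.eq_zero_iff] at h1
    exact h1
  obtain ⟨z, hz⟩ := (D.mem_GlobG S ρC).1 hmG
  refine ⟨a - delta1 Ss hBQ z, fun v hv => ?_, ?_⟩
  · have h1 : loc2 ρA v (a - delta1 Ss hBQ z) =
        delta1 (Ss.res (Dq v).subtype) (hBQ.res lvlQ (Dq v).subtype) (m v - loc1 ρC v z) := by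
      have h2 : delta1 (Ss.res (Dq v).subtype) (hBQ.res lvlQ (Dq v).subtype) (m v - loc1 ρC v z) =
          delta1 (Ss.res (Dq v).subtype) (hBQ.res lvlQ (Dq v).subtype) (m v) -
            delta1 (Ss.res (Dq v).subtype) (hBQ.res lvlQ (Dq v).subtype) (loc1 ρC v z) :=
        map_sub _ _ _
      rw [map_sub, h2, hm1 v hv]
      congr 1
      exact res2_delta1 lvlQ Ss hBQ (Dq v).subtype z
    rw [h1]
    exact delta_ur Ss hB hv _ (hz v hv)
  · rw [map_sub, ha, (H2c_i_eq_zero_iff Ss hBQ _).2 ⟨z, rfl⟩, sub_zero]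

theorem surj_H2C (hp2 : p ≠ 2) (hpS : pPrime p ∈ S) (Ss : SES ρA ρB ρC i j)
    (hB : FinMod p (lvlS S) ρB) (c : H2 lvlQ ρC) (hc : c ∈ H2S S ρC) :
    ∃ b ∈ H2S S ρB, H2c lvlQ Ss.hj b = c := by
  letI : DecidableEq Nat.Primes := fun a b => Classical.propDecidable (a = b)
  obtain ⟨dat⟩ := datumQ p hp2
  haveI : Nonempty Nat.Primes := ⟨pPrime p⟩
  have hχ : Smooth lvlQ (rhoChi (cycloChar p)) := smooth_rhoT p
  have hBQ' : FinMod p lvlQ ρB := D.finMod_lvlQ_aux hB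
  have hBQ : Smooth lvlQ ρB := smooth_of_lvlS hB.smooth
  have hAQ : FinMod p lvlQ ρA := D.finMod_lvlQ_aux (Ss.finModA hB)
  have hCQ : FinMod p lvlQ ρC := D.finMod_lvlQ_aux (Ss.finModC hB)
  obtain ⟨b, hb⟩ := dat.re hχ hCQ B ρB hBQ' j Ss.hj Ss.surj c
  have hex : ∀ v : Nat.Primes, ∃ a : H2 (lv lvlQ Dq v) (rv Dq ρA v),
      (v ∉ S → H2c (lv lvlQ Dq v) (Ss.hi.res (Dq v).subtype) a = res2 lvlQ ρB (Dq v).subtype b) ∧
      (v ∈ S ∨ res2 lvlQ ρB (Dq v).subtype b = 0 → a = 0) := by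
    intro v
    by_cases h0' : v ∈ S ∨ res2 lvlQ ρB (Dq v).subtype b = 0
    · refine ⟨0, fun hv => ?_, fun _ => rfl⟩
      rw [map_zero, h0'.resolve_left hv]
    · have hv : v ∉ S := fun h => h0' (Or.inl h)
      have h1 : H2c (lvlQ.comap (Dq v).subtype) (Ss.hj.res (Dq v).subtype)
          (res2 lvlQ ρB (Dq v).subtype b) = 0 := by
        rw [← res2_H2c lvlQ (Dq v).subtype Ss.hj b, hb]
        exact hc v hv
      obtain ⟨a, ha⟩ := (H2c_j_eq_zero_iff (Ss.res (Dq v).subtype)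
        (hBQ.res lvlQ (Dq v).subtype) _).1 h1
      exact ⟨a, fun _ => ha, fun h => absurd h h0'⟩
  choose a0 ha1 ha2 using hex
  have hFS0 : FS (𝓛 := lvlQ) (D := Dq) (ρ := ρB) (locAll lvlQ Dq ρB b) := dat.fin_all hχ hBQ' b
  have hFS : FS (𝓛 := lvlQ) (D := Dq) (ρ := ρA) a0 := by
    refine hFS0.subset fun v hv h => hv (ha2 v (Or.inr h))
  -- the correction at `p`
  let l0 : ↥(H0 (dualRho (cycloChar p) ρA)) →+ ZMod p :=
    -∑ v ∈ hFS.toFinset, dat.lp ρA v (a0 v)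
  have hl0 : ∀ φ, dat.gp ρA a0 φ = - l0 φ := fun φ => by
    rw [Datum.gp, finsum_eq_sum_of_support_subset (s := hFS.toFinset) _ (fun v hv => by
      rw [Finset.mem_coe, Set.Finite.mem_toFinset]
      intro h
      apply hv
      show dat.lp ρA v (a0 v) φ = 0
      rw [h, map_zero]
      rfl)]
    simp only [l0, AddMonoidHom.neg_apply, AddMonoidHom.finsetSum_apply, neg_neg]
  have hW0 : ∀ w : ↥(H0 (rv Dq (dualRho (cycloChar p) ρA) (pPrime p))), p • w = 0 :=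
    fun w => Subtype.ext (LA.nsmul_dual w.1)
  obtain ⟨m, hm⟩ := LA.exists_extend_of_injective hW0
    (res0 (dualRho (cycloChar p) ρA) (Dq (pPrime p)).subtype)
    (fun a b hab => Subtype.ext (congrArg (fun w : ↥(H0 (rv Dq (dualRho (cycloChar p) ρA)
      (pPrime p))) => (w : A →+ ZMod p)) hab)) l0
  obtain ⟨y, hy⟩ := ((dat.loc (pPrime p)).pair_bijective (hχ.res lvlQ (Dq (pPrime p)).subtype)
    (hAQ.res (Dq (pPrime p)).subtype)).2 m
  have hly : ∀ φ, dat.lp ρA (pPrime p) y φ = l0 φ := fun φ => by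
    rw [← hm φ, ← hy]
    rfl
  obtain ⟨a, ha⟩ := dat.glob hχ hAQ (a0 + Pi.single (pPrime p) y)
    (hFS.add (FS_single (pPrime p) y)) (fun φ => by
      rw [dat.gp_add hFS (FS_single (pPrime p) y), dat.gp_single, hl0, hly, neg_add_cancel])
  refine ⟨b - H2c lvlQ Ss.hi a, fun v hv => ?_, ?_⟩
  · have hvp : v ≠ pPrime p := fun h => hv (h ▸ hpS)
    have h1 : res2 lvlQ ρA (Dq v).subtype a = a0 v := by
      have h2 := congrFun ha v
      rw [Pi.add_apply, Pi.single_eq_of_ne hvp, add_zero] at h2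
      exact h2
    show res2 lvlQ ρB (Dq v).subtype (b - H2c lvlQ Ss.hi a) = 0
    rw [map_sub, res2_H2c lvlQ (Dq v).subtype Ss.hi a, h1]
    exact sub_eq_zero.2 (ha1 v hv).symm
  · rw [map_sub, hb, (H2c_j_eq_zero_iff Ss hBQ _).2 ⟨a, rfl⟩, sub_zero]

end Fermat.Agent.S56.E
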